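/-
S25 package ATLAS -- FROZEN sub-interface (captain helper6325).  Definitions only; no sorry.
See BOARD_S25_ATLAS.md (origin/helper6325).  NEVER edit (push an ISSUE note instead).

The atlas of `Pic⁰` is assembled from
* `DivAtlas 𝒞`  : affine charts of the functor of rigid line bundles `M` "of the form `O(D)`",
  `D` an effective relative divisor of degree `genus 𝒞` inside `U₁`, `ε ∉ D`, `H¹(O(D)) = 0`;
* `TwistFamily 𝒞` : the twists `L ↦ M = L(Δ)` by effective `k`-divisors `Δ` of degree `genus 𝒞`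
  (supported in `U₁ ∖ ε`), with (Good Δ);
* lifting of rigid line bundles along square-zero extensions (formal smoothness).
-/
import Fermat.Agent.S25.AlgDefs

set_option autoImplicit false

universe u

namespace Fermat.Agent.S25.ATLAS

open scoped TensorProduct

open GluedModule

variable {k : Type u} [Field k]

/-- The genus: `dim_k H¹(C, O)`, computed on the two-chart Čech complex over `k`. -/
noncomputable def genus (𝒞 : CurveData k) : ℕ :=
  Module.finrank k (GluedModule.unit (𝒞.chart k)).H1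

/-- "`M` (over `R`) is a base change of `Q` (over `S`)": `M` lies in the chart with universal
object `Q`. -/
def InChart (𝒞 : CurveData k) {S : Type u} [CommRing S] [Algebra k S]
    (Q : GluedModule (𝒞.chart S)) (R : Type u) [CommRing R] [Algebra k R]
    (M : GluedModule (𝒞.chart R)) : Prop :=
  ∃ ψ : S →ₐ[k] R, IsBC (𝒞.chartHom ψ) Q M

/-- The interface between (Good Δ) and the divisor charts, over a field `κ`:
`H¹(M) = 0`, `h⁰(M) = 1`, and a global section `s = (s₁, s₂)` which does not vanish at `ε`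
(`s₁ ∉ 𝔪_ε M₁`) and does not vanish on `V(g) = C ∖ U₁` (`M₂ = B₂ s₂ + g M₂`).
(Then `M ≅ O(D)`, `D = div s ⊆ U₁ ∖ ε` of degree `genus 𝒞`.) -/
structure Good (𝒞 : CurveData k) {κ : Type u} [Field κ] [Algebra k κ]
    (M : GluedModule (𝒞.chart κ)) : Prop where
  h1 : Subsingleton M.H1
  h0 : Module.finrank κ M.H0 = 1
  sec : ∃ s : M.H0,
    (s : M.N₁ × M.N₂).1 ∉
        (RingHom.ker (𝒞.epsR κ : (𝒞.chart κ).B₁ →+* κ)) • (⊤ : Submodule (𝒞.chart κ).B₁ M.N₁) ∧
      Submodule.span (𝒞.chart κ).B₂ {(s : M.N₁ × M.N₂).2} ⊔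
          (Ideal.span {(𝒞.chart κ).g}) • (⊤ : Submodule (𝒞.chart κ).B₂ M.N₂) = ⊤

/-- Affine charts `Spec (S j)` with universal rigid line bundles `Q j` ("`O(D_univ)`"),
each chart being the functor `R ↦ {M | InChart (Q j) R M}/≅`.
(Route: `j = (b, h)`, `S j = S_b[1/h]` a localisation of a Hilbert chart of `genus 𝒞` points of
`U₁`, `Q j = O(D_univ)`.) -/
structure DivAtlas (𝒞 : CurveData k) where
  J : Type u
  S : J → Type u
  [commRing : ∀ j, CommRing (S j)]
  [algebra : ∀ j, Algebra k (S j)]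
  finiteType : ∀ j, Algebra.FiniteType k (S j)
  /-- The universal object of the chart. -/
  Q : ∀ j, GluedModule (𝒞.chart (S j))
  Q_lineBundle : ∀ j, (Q j).IsLineBundle
  Q_rigid : ∀ j, Rigid 𝒞 (Q j)
  /-- Fibrewise degree `genus 𝒞`. -/
  Q_chi : ∀ (j : J) (κ : Type u) [Field κ] [IsAlgClosed κ] [Algebra k κ] (φ : S j →ₐ[k] κ)
    (N : GluedModule (𝒞.chart κ)), IsBC (𝒞.chartHom φ) (Q j) N →
      GluedModule.chi N = GluedModule.chi (GluedModule.unit (𝒞.chart κ)) + genus 𝒞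
  /-- (INJ) the classifying map is unique. -/
  inj : ∀ (j : J) {R : Type u} [CommRing R] [Algebra k R] (φ ψ : S j →ₐ[k] R)
    (M : GluedModule (𝒞.chart R)), IsBC (𝒞.chartHom φ) (Q j) M →
      IsBC (𝒞.chartHom ψ) (Q j) M → φ = ψ
  /-- (LG) a rigid line bundle all of whose geometric fibres lie in the chart lies in the
  chart. -/
  lg : ∀ (j : J) {R : Type u} [CommRing R] [Algebra k R] (M : GluedModule (𝒞.chart R)),
    M.IsLineBundle → Rigid 𝒞 M →
    (∀ (κ : Type u) [Field κ] [IsAlgClosed κ] [Algebra k κ] (φ : R →ₐ[k] κ)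
      (M' : GluedModule (𝒞.chart κ)), IsBC (𝒞.chartHom φ) M M' → InChart 𝒞 (Q j) κ M') →
    InChart 𝒞 (Q j) R M
  /-- (SPREAD) if one geometric fibre lies in the chart, so does `M` over a basic open
  neighbourhood `D(a)` of that point (stated for every `R → R'` inverting `a`). -/
  spread : ∀ (j : J) {R : Type u} [CommRing R] [Algebra k R] (M : GluedModule (𝒞.chart R)),
    M.IsLineBundle → Rigid 𝒞 M →
    ∀ (κ : Type u) [Field κ] [IsAlgClosed κ] [Algebra k κ] (φ₀ : R →ₐ[k] κ)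
      (M₀ : GluedModule (𝒞.chart κ)), IsBC (𝒞.chartHom φ₀) M M₀ → InChart 𝒞 (Q j) κ M₀ →
    ∃ a : R, φ₀ a ≠ 0 ∧ ∀ (R' : Type u) [CommRing R'] [Algebra k R'] (φ : R →ₐ[k] R')
      (M' : GluedModule (𝒞.chart R')), IsUnit (φ a) → IsBC (𝒞.chartHom φ) M M' →
        InChart 𝒞 (Q j) R' M'
  /-- Every good bundle over an algebraically closed field lies in some chart. -/
  good_mem : ∀ (κ : Type u) [Field κ] [IsAlgClosed κ] [Algebra k κ]
    (M : GluedModule (𝒞.chart κ)), M.IsLineBundle → Rigid 𝒞 M → Good 𝒞 M →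
      ∃ j, InChart 𝒞 (Q j) κ M

attribute [instance] DivAtlas.commRing DivAtlas.algebra

/-- The twists `tw δ R L M` : "`M ≅ L(Δ)`", `Δ = Δ_δ` an effective divisor of degree `genus 𝒞`
defined over `k`, supported in `U₁ ∖ ε`.  (Route: `δ = (x₁, …, x_g)`, `k`-points of `U₁`, `≠ ε`;
`tw δ R L M := Nonempty (L.Iso (𝔡_R • M))`, `𝔡` the ideal datum of `Δ`; or `M ≅ L ⊗ O(Δ)_R`.) -/
structure TwistFamily (𝒞 : CurveData k) where
  Δ : Type u
  tw : Δ → ∀ (R : Type u) [CommRing R] [Algebra k R],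
    GluedModule (𝒞.chart R) → GluedModule (𝒞.chart R) → Prop
  exists_up : ∀ (δ : Δ) {R : Type u} [CommRing R] [Algebra k R] (L : GluedModule (𝒞.chart R)),
    L.IsLineBundle → ∃ M : GluedModule (𝒞.chart R), M.IsLineBundle ∧ tw δ R L M
  exists_down : ∀ (δ : Δ) {R : Type u} [CommRing R] [Algebra k R] (M : GluedModule (𝒞.chart R)),
    M.IsLineBundle → ∃ L : GluedModule (𝒞.chart R), L.IsLineBundle ∧ tw δ R L M
  unique_up : ∀ (δ : Δ) {R : Type u} [CommRing R] [Algebra k R]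
    (L M M' : GluedModule (𝒞.chart R)), L.IsLineBundle → M.IsLineBundle → M'.IsLineBundle →
      tw δ R L M → tw δ R L M' → Nonempty (M.Iso M')
  unique_down : ∀ (δ : Δ) {R : Type u} [CommRing R] [Algebra k R]
    (L L' M : GluedModule (𝒞.chart R)), L.IsLineBundle → L'.IsLineBundle → M.IsLineBundle →
      tw δ R L M → tw δ R L' M → Nonempty (L.Iso L')
  bc : ∀ (δ : Δ) {R R' : Type u} [CommRing R] [Algebra k R] [CommRing R'] [Algebra k R']
    (φ : R →ₐ[k] R') (L M : GluedModule (𝒞.chart R)) (L' M' : GluedModule (𝒞.chart R')),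
    L.IsLineBundle → M.IsLineBundle → tw δ R L M → IsBC (𝒞.chartHom φ) L L' →
      IsBC (𝒞.chartHom φ) M M' → tw δ R' L' M'
  rigid_iff : ∀ (δ : Δ) {R : Type u} [CommRing R] [Algebra k R]
    (L M : GluedModule (𝒞.chart R)), L.IsLineBundle → M.IsLineBundle → tw δ R L M →
      (Rigid 𝒞 L ↔ Rigid 𝒞 M)
  chi : ∀ (δ : Δ) (κ : Type u) [Field κ] [IsAlgClosed κ] [Algebra k κ]
    (L M : GluedModule (𝒞.chart κ)), L.IsLineBundle → M.IsLineBundle → tw δ κ L M →
      GluedModule.chi M = GluedModule.chi L + genus 𝒞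
  /-- (Good Δ) -/
  good : ∀ (κ : Type u) [Field κ] [IsAlgClosed κ] [Algebra k κ] (L : GluedModule (𝒞.chart κ)),
    IsPic0 𝒞 L → ∃ (δ : Δ) (M : GluedModule (𝒞.chart κ)),
      M.IsLineBundle ∧ tw δ κ L M ∧ Good 𝒞 M

end Fermat.Agent.S25.ATLAS
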