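/-
S25 (Jacobian), package ATLAS, piece HILBCHART (helper2928).  Mathlib-only.

The affine "Hilbert chart" `S_B` of route section 2.4: for a `k`-algebra `A` and
`b : Fin g → A`, the `k`-algebra `HilbChart k A b` represents the functor
`R ↦ {ideals I ⊆ R ⊗[k] A such that (R ⊗[k] A) ⧸ I is free on the classes of 1 ⊗ b j}`.
-/
import Mathlib

set_option autoImplicit false

universe u v w w'

namespace Fermat.Agent.S25.ATLAS.HC2928

open scoped TensorProduct
open MvPolynomial

noncomputable section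

section Defs

variable (k : Type u) [CommRing k] (A : Type v) [CommRing A] [Algebra k A] {g : ℕ}
  (b : Fin g → A)

/-- The relations defining the Hilbert chart: `ρ(a)_j := X (a, j)` is `k`-linear in `a`,
`ρ(b i) = e_i`, and `ρ(a a') = ∑ l, ρ(a')_l ρ(a b_l)`. -/
def relSet : Set (MvPolynomial (A × Fin g) k) :=
  {p | (∃ (a a' : A) (j : Fin g), p = X (a + a', j) - X (a, j) - X (a', j)) ∨
       (∃ (c : k) (a : A) (j : Fin g), p = X (c • a, j) - C c * X (a, j)) ∨
       (∃ (i j : Fin g), p = X (b i, j) - (if i = j then 1 else 0)) ∨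
       (∃ (a a' : A) (j : Fin g), p = X (a * a', j) - ∑ l, X (a', l) * X (a * b l, j))}

/-- The ideal of relations. -/
def relIdeal : Ideal (MvPolynomial (A × Fin g) k) := Ideal.span (relSet k A b)

/-- The affine Hilbert chart `S_B`. -/
abbrev HilbChart : Type (max u v) := MvPolynomial (A × Fin g) k ⧸ relIdeal k A b

/-- The coordinate functions `ρ(a)_j` on the Hilbert chart. -/
def coord (a : A) (j : Fin g) : HilbChart k A b :=
  Ideal.Quotient.mk (relIdeal k A b) (X (a, j))

/-- A point of the Hilbert chart with values in `R`, in "coordinates". -/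
structure Datum (R : Type w) [CommRing R] [Algebra k R] where
  /-- the coordinate map -/
  ρ : A →ₗ[k] (Fin g → R)
  ρ_b : ∀ i j : Fin g, ρ (b i) j = if i = j then 1 else 0
  ρ_mul : ∀ (a a' : A) (j : Fin g), ρ (a * a') j = ∑ l, ρ a' l * ρ (a * b l) j

end Defs

section Coord

variable {k : Type u} [CommRing k] {A : Type v} [CommRing A] [Algebra k A] {g : ℕ}
  {b : Fin g → A}

theorem coord_add (a a' : A) (j : Fin g) :
    coord k A b (a + a') j = coord k A b a j + coord k A b a' j := by
  have h : (X (a + a', j) - X (a, j) - X (a', j) : MvPolynomial (A × Fin g) k) ∈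
      relIdeal k A b := Ideal.subset_span (Or.inl ⟨a, a', j, rfl⟩)
  have h2 := (Ideal.Quotient.eq_zero_iff_mem).2 h
  simp only [map_sub] at h2
  unfold coord
  linear_combination h2

theorem coord_smul (c : k) (a : A) (j : Fin g) :
    coord k A b (c • a) j = c • coord k A b a j := by
  have h : (X (c • a, j) - C c * X (a, j) : MvPolynomial (A × Fin g) k) ∈
      relIdeal k A b := Ideal.subset_span (Or.inr (Or.inl ⟨c, a, j, rfl⟩))
  have h2 := (Ideal.Quotient.eq_zero_iff_mem).2 h
  simp only [map_sub, map_mul] at h2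
  have h3 : c • coord k A b a j =
      Ideal.Quotient.mk (relIdeal k A b) (C c * X (a, j)) := by
    rw [← MvPolynomial.smul_eq_C_mul]; rfl
  rw [h3, map_mul]
  unfold coord
  linear_combination h2

theorem coord_b (i j : Fin g) :
    coord k A b (b i) j = if i = j then 1 else 0 := by
  have h : (X (b i, j) - (if i = j then 1 else 0) : MvPolynomial (A × Fin g) k) ∈
      relIdeal k A b := Ideal.subset_span (Or.inr (Or.inr (Or.inl ⟨i, j, rfl⟩)))
  have h2 := (Ideal.Quotient.eq_zero_iff_mem).2 h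
  simp only [map_sub] at h2
  unfold coord
  rw [sub_eq_zero] at h2
  rw [h2]
  split_ifs <;> simp

theorem coord_mul (a a' : A) (j : Fin g) :
    coord k A b (a * a') j = ∑ l, coord k A b a' l * coord k A b (a * b l) j := by
  have h : (X (a * a', j) - ∑ l, X (a', l) * X (a * b l, j) :
      MvPolynomial (A × Fin g) k) ∈ relIdeal k A b :=
    Ideal.subset_span (Or.inr (Or.inr (Or.inr ⟨a, a', j, rfl⟩)))
  have h2 := (Ideal.Quotient.eq_zero_iff_mem).2 h
  simp only [map_sub, map_sum, map_mul] at h2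
  unfold coord
  rw [sub_eq_zero] at h2
  exact h2

end Coord

section Hom

variable {k : Type u} [CommRing k] {A : Type v} [CommRing A] [Algebra k A] {g : ℕ}
  {b : Fin g → A} {R : Type w} [CommRing R] [Algebra k R]

@[ext]
theorem Datum.ext {d d' : Datum k A b R} (h : ∀ a j, d.ρ a j = d'.ρ a j) : d = d' := by
  cases d with
  | mk ρ h1 h2 =>
    cases d' with
    | mk ρ' h1' h2' =>
      have : ρ = ρ' := LinearMap.ext fun a => funext fun j => h a j
      subst this
      rfl

/-- The datum of an `R`-point of the Hilbert chart. -/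
def Datum.ofHom (x : HilbChart k A b →ₐ[k] R) : Datum k A b R where
  ρ :=
    { toFun := fun a j => x (coord k A b a j)
      map_add' := fun a a' => by
        funext j
        simp only [coord_add, map_add, Pi.add_apply]
      map_smul' := fun c a => by
        funext j
        simp only [coord_smul, map_smul, RingHom.id_apply, Pi.smul_apply] }
  ρ_b := fun i j => by
    simp only [LinearMap.coe_mk, AddHom.coe_mk, coord_b]
    split_ifs <;> simp
  ρ_mul := fun a a' j => by
    show x (coord k A b (a * a') j) = ∑ l, x (coord k A b a' l) * x (coord k A b (a * b l) j)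
    rw [coord_mul, map_sum]
    simp only [map_mul]

@[simp]
theorem Datum.ofHom_ρ (x : HilbChart k A b →ₐ[k] R) (a : A) (j : Fin g) :
    (Datum.ofHom x).ρ a j = x (coord k A b a j) := rfl

theorem Datum.relIdeal_le (d : Datum k A b R) :
    relIdeal k A b ≤ RingHom.ker
      (MvPolynomial.aeval (R := k) fun p : A × Fin g => d.ρ p.1 p.2).toRingHom := by
  refine Ideal.span_le.2 ?_
  rintro p (⟨a, a', j, rfl⟩ | ⟨c, a, j, rfl⟩ | ⟨i, j, rfl⟩ | ⟨a, a', j, rfl⟩)
  · simp only [SetLike.mem_coe, RingHom.mem_ker, AlgHom.toRingHom_eq_coe, RingHom.coe_coe,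
      map_sub, aeval_X, map_add, Pi.add_apply]
    ring
  · simp only [SetLike.mem_coe, RingHom.mem_ker, AlgHom.toRingHom_eq_coe, RingHom.coe_coe,
      map_sub, map_mul, aeval_X, aeval_C, map_smul, Pi.smul_apply]
    rw [Algebra.smul_def, sub_self]
  · simp only [SetLike.mem_coe, RingHom.mem_ker, AlgHom.toRingHom_eq_coe, RingHom.coe_coe,
      map_sub, aeval_X, d.ρ_b]
    split_ifs <;> simp
  · simp only [SetLike.mem_coe, RingHom.mem_ker, AlgHom.toRingHom_eq_coe, RingHom.coe_coe,
      map_sub, map_sum, map_mul, aeval_X, d.ρ_mul a a' j]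
    ring

/-- The `R`-point of the Hilbert chart with a given datum. -/
def Datum.toHom (d : Datum k A b R) : HilbChart k A b →ₐ[k] R :=
  Ideal.Quotient.liftₐ (relIdeal k A b)
    (MvPolynomial.aeval (R := k) fun p : A × Fin g => d.ρ p.1 p.2)
    (fun _ hp => d.relIdeal_le hp)

@[simp]
theorem Datum.toHom_coord (d : Datum k A b R) (a : A) (j : Fin g) :
    d.toHom (coord k A b a j) = d.ρ a j := by
  have h := AlgHom.congr_fun (Ideal.Quotient.liftₐ_comp (relIdeal k A b)
    (MvPolynomial.aeval (R := k) fun p : A × Fin g => d.ρ p.1 p.2)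
    (fun _ hp => d.relIdeal_le hp)) (X (a, j))
  exact h.trans (MvPolynomial.aeval_X _ _)

theorem Datum.toHom_ofHom (x : HilbChart k A b →ₐ[k] R) : (Datum.ofHom x).toHom = x := by
  apply Ideal.Quotient.algHom_ext
  apply MvPolynomial.algHom_ext
  intro p
  obtain ⟨a, j⟩ := p
  exact (Datum.ofHom x).toHom_coord a j

theorem Datum.ofHom_toHom (d : Datum k A b R) : Datum.ofHom d.toHom = d := by
  ext a j
  simp

/-- **Universal property of the Hilbert chart, coordinate form.** -/
def homEquiv : (HilbChart k A b →ₐ[k] R) ≃ Datum k A b R where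
  toFun := Datum.ofHom
  invFun := Datum.toHom
  left_inv := Datum.toHom_ofHom
  right_inv := Datum.ofHom_toHom

end Hom

section IdealOfDatum

variable {k : Type u} [CommRing k] {A : Type v} [CommRing A] [Algebra k A] {g : ℕ}
  {b : Fin g → A} {R : Type w} [CommRing R] [Algebra k R]

/-- The `R`-linear extension `R ⊗[k] A → R^g` of the coordinate map of a datum. -/
def Datum.ρR (d : Datum k A b R) : R ⊗[k] A →ₗ[R] (Fin g → R) := d.ρ.liftBaseChange R

@[simp]
theorem Datum.ρR_tmul (d : Datum k A b R) (r : R) (a : A) :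
    d.ρR (r ⊗ₜ[k] a) = r • d.ρ a := rfl

theorem Datum.ρR_tmul_apply (d : Datum k A b R) (r : R) (a : A) (j : Fin g) :
    d.ρR (r ⊗ₜ[k] a) j = r * d.ρ a j := rfl

/-- The key identity: `ρ_R (x y) = ∑ l, ρ_R(y)_l ρ_R (x (1 ⊗ b_l))`. -/
theorem Datum.ρR_mul (d : Datum k A b R) (x y : R ⊗[k] A) (j : Fin g) :
    d.ρR (x * y) j = ∑ l, d.ρR y l * d.ρR (x * ((1 : R) ⊗ₜ[k] b l)) j := by
  induction y using TensorProduct.induction_on with
  | zero => simp
  | tmul r' a' =>
    induction x using TensorProduct.induction_on with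
    | zero => simp
    | tmul r a =>
      simp only [Algebra.TensorProduct.tmul_mul_tmul, Datum.ρR_tmul_apply, mul_one,
        d.ρ_mul a a' j, Finset.mul_sum]
      refine Finset.sum_congr rfl fun l _ => ?_
      ring
    | add x₁ x₂ h₁ h₂ =>
      simp only [add_mul, map_add, Pi.add_apply, h₁, h₂, mul_add, Finset.sum_add_distrib]
  | add y₁ y₂ h₁ h₂ =>
    simp only [mul_add, map_add, Pi.add_apply, h₁, h₂, add_mul, Finset.sum_add_distrib]

/-- The ideal of `R ⊗[k] A` attached to a datum: the kernel of `ρ_R`. -/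
def Datum.ideal (d : Datum k A b R) : Ideal (R ⊗[k] A) where
  carrier := {y | d.ρR y = 0}
  add_mem' := fun {x y} hx hy => by
    change d.ρR x = 0 at hx
    change d.ρR y = 0 at hy
    change d.ρR (x + y) = 0
    rw [map_add, hx, hy, add_zero]
  zero_mem' := by simp
  smul_mem' := fun c y hy => by
    change d.ρR y = 0 at hy
    change d.ρR (c • y) = 0
    funext j
    rw [smul_eq_mul, d.ρR_mul, hy]
    simp

theorem Datum.mem_ideal (d : Datum k A b R) (y : R ⊗[k] A) : y ∈ d.ideal ↔ d.ρR y = 0 :=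
  Iff.rfl

theorem Datum.ρR_one_tmul_b (d : Datum k A b R) (i : Fin g) :
    d.ρR ((1 : R) ⊗ₜ[k] b i) = Pi.single i 1 := by
  funext j
  rw [Datum.ρR_tmul_apply, one_mul, d.ρ_b, Pi.single_apply]
  by_cases h : i = j
  · subst h; simp
  · rw [if_neg h, if_neg (fun h' => h h'.symm)]

theorem Datum.ρR_sum_tmul_b (d : Datum k A b R) (c : Fin g → R) :
    d.ρR (∑ l, c l ⊗ₜ[k] b l) = c := by
  funext j
  rw [map_sum, Finset.sum_apply]
  simp only [Datum.ρR_tmul_apply, d.ρ_b]
  simp

theorem Datum.ρR_surjective (d : Datum k A b R) : Function.Surjective d.ρR :=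
  fun c => ⟨_, d.ρR_sum_tmul_b c⟩

/-- Every element is congruent modulo the ideal to the combination of the `1 ⊗ b l` given by
its coordinates. -/
theorem Datum.sub_mem_ideal (d : Datum k A b R) (y : R ⊗[k] A) :
    y - ∑ l, d.ρR y l ⊗ₜ[k] b l ∈ d.ideal := by
  rw [Datum.mem_ideal, map_sub, Datum.ρR_sum_tmul_b, sub_self]

theorem Datum.ideal_restrictScalars (d : Datum k A b R) :
    d.ideal.restrictScalars R = LinearMap.ker d.ρR := by
  ext y
  simp [Datum.mem_ideal]

/-- The quotient by the ideal of a datum is `R^g`. -/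
def Datum.quotEquiv (d : Datum k A b R) : ((R ⊗[k] A) ⧸ d.ideal) ≃ₗ[R] (Fin g → R) :=
  (Submodule.Quotient.restrictScalarsEquiv R d.ideal).symm ≪≫ₗ
    Submodule.quotEquivOfEq _ _ d.ideal_restrictScalars ≪≫ₗ
    d.ρR.quotKerEquivOfSurjective d.ρR_surjective

@[simp]
theorem Datum.quotEquiv_mk (d : Datum k A b R) (y : R ⊗[k] A) :
    d.quotEquiv (Ideal.Quotient.mk d.ideal y) = d.ρR y := rfl

end IdealOfDatum

section FreeOn

variable {k : Type u} [CommRing k] {A : Type v} [CommRing A] [Algebra k A] {g : ℕ}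
  (b : Fin g → A) {R : Type w} [CommRing R] [Algebra k R]

/-- The classes of `1 ⊗ b j` form an `R`-basis of `(R ⊗[k] A) ⧸ I`. -/
def IsFreeOn (I : Ideal (R ⊗[k] A)) : Prop :=
  ∃ B : Module.Basis (Fin g) R ((R ⊗[k] A) ⧸ I),
    ∀ j, B j = Ideal.Quotient.mk I ((1 : R) ⊗ₜ[k] b j)

variable {b}

theorem mk_smul_aux (I : Ideal (R ⊗[k] A)) (r : R) (x : R ⊗[k] A) :
    Ideal.Quotient.mk I (r • x) = r • Ideal.Quotient.mk I x := rfl

theorem isFreeOn_iff (I : Ideal (R ⊗[k] A)) :
    IsFreeOn b I ↔
      LinearIndependent R (fun j : Fin g => Ideal.Quotient.mk I ((1 : R) ⊗ₜ[k] b j)) ∧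
      ⊤ ≤ Submodule.span R
        (Set.range fun j : Fin g => Ideal.Quotient.mk I ((1 : R) ⊗ₜ[k] b j)) := by
  constructor
  · rintro ⟨B, hB⟩
    have hfun : (fun j : Fin g => Ideal.Quotient.mk I ((1 : R) ⊗ₜ[k] b j)) = B :=
      funext fun j => (hB j).symm
    rw [hfun]
    exact ⟨B.linearIndependent, B.span_eq.ge⟩
  · rintro ⟨h1, h2⟩
    exact ⟨Module.Basis.mk h1 h2, fun j => by rw [Module.Basis.mk_apply]⟩

/-- The ideal of a datum is free on `b`. -/
theorem Datum.isFreeOn (d : Datum k A b R) : IsFreeOn b d.ideal := by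
  refine ⟨(Pi.basisFun R (Fin g)).map d.quotEquiv.symm, fun j => ?_⟩
  rw [Module.Basis.map_apply, LinearEquiv.symm_apply_eq, Datum.quotEquiv_mk,
    Datum.ρR_one_tmul_b, Pi.basisFun_apply]

/-- The coordinates of a class in a basis as in `IsFreeOn`, in terms of any datum with that
ideal. -/
theorem Datum.equivFun_mk (d : Datum k A b R)
    (B : Module.Basis (Fin g) R ((R ⊗[k] A) ⧸ d.ideal))
    (hB : ∀ j, B j = Ideal.Quotient.mk d.ideal ((1 : R) ⊗ₜ[k] b j)) (y : R ⊗[k] A) :
    B.equivFun (Ideal.Quotient.mk d.ideal y) = d.ρR y := by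
  have h : B.equivFun.toLinearMap = d.quotEquiv.toLinearMap := by
    apply B.ext
    intro j
    funext i
    simp only [LinearEquiv.coe_coe]
    rw [Module.Basis.equivFun_self, hB j, Datum.quotEquiv_mk, Datum.ρR_one_tmul_b,
      Pi.single_apply]
    by_cases h : j = i
    · subst h; simp
    · rw [if_neg h, if_neg (fun h' => h h'.symm)]
  exact LinearMap.congr_fun h (Ideal.Quotient.mk d.ideal y)

/-- The datum of an ideal whose quotient is free on `b`. -/
def Datum.ofIdeal (I : Ideal (R ⊗[k] A)) (h : IsFreeOn b I) : Datum k A b R where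
  ρ :=
    { toFun := fun a => h.choose.equivFun (Ideal.Quotient.mk I ((1 : R) ⊗ₜ[k] a))
      map_add' := fun a a' => by
        rw [TensorProduct.tmul_add, map_add, map_add]
      map_smul' := fun c a => by
        rw [TensorProduct.tmul_smul, RingHom.id_apply]
        have h1 : Ideal.Quotient.mk I (c • ((1 : R) ⊗ₜ[k] a)) =
            (algebraMap k R c) • Ideal.Quotient.mk I ((1 : R) ⊗ₜ[k] a) := by
          rw [← mk_smul_aux, TensorProduct.smul_tmul', TensorProduct.smul_tmul',
            Algebra.smul_def, smul_eq_mul]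
        rw [h1, map_smul]
        funext j
        simp [Algebra.smul_def] }
  ρ_b := fun i j => by
    show h.choose.equivFun (Ideal.Quotient.mk I ((1 : R) ⊗ₜ[k] b i)) j = _
    rw [← h.choose_spec i, Module.Basis.equivFun_self]
  ρ_mul := fun a a' j => by
    show h.choose.equivFun (Ideal.Quotient.mk I ((1 : R) ⊗ₜ[k] (a * a'))) j =
      ∑ l, h.choose.equivFun (Ideal.Quotient.mk I ((1 : R) ⊗ₜ[k] a')) l *
        h.choose.equivFun (Ideal.Quotient.mk I ((1 : R) ⊗ₜ[k] (a * b l))) j
    have h1 : Ideal.Quotient.mk I ((1 : R) ⊗ₜ[k] (a * a')) =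
        ∑ l, h.choose.equivFun (Ideal.Quotient.mk I ((1 : R) ⊗ₜ[k] a')) l •
          Ideal.Quotient.mk I ((1 : R) ⊗ₜ[k] (a * b l)) := by
      have h2 : ((1 : R) ⊗ₜ[k] (a * a') : R ⊗[k] A) =
          ((1 : R) ⊗ₜ[k] a) * ((1 : R) ⊗ₜ[k] a') := by
        rw [Algebra.TensorProduct.tmul_mul_tmul, mul_one]
      rw [h2, map_mul]
      conv_lhs => rw [← h.choose.sum_equivFun (Ideal.Quotient.mk I ((1 : R) ⊗ₜ[k] a'))]
      rw [Finset.mul_sum]
      refine Finset.sum_congr rfl fun l _ => ?_
      rw [mul_smul_comm, h.choose_spec l, ← map_mul, Algebra.TensorProduct.tmul_mul_tmul,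
        mul_one]
    rw [h1, map_sum, Finset.sum_apply]
    simp only [map_smul, Pi.smul_apply, smul_eq_mul]

theorem Datum.ofIdeal_ρR (I : Ideal (R ⊗[k] A)) (h : IsFreeOn b I) (y : R ⊗[k] A) :
    (Datum.ofIdeal I h).ρR y = h.choose.equivFun (Ideal.Quotient.mk I y) := by
  induction y using TensorProduct.induction_on with
  | zero => simp
  | tmul r a =>
    rw [Datum.ρR_tmul]
    show r • h.choose.equivFun (Ideal.Quotient.mk I ((1 : R) ⊗ₜ[k] a)) = _
    rw [← map_smul, ← mk_smul_aux, TensorProduct.smul_tmul', smul_eq_mul, mul_one]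
  | add y₁ y₂ h₁ h₂ => rw [map_add, h₁, h₂, map_add, map_add]

/-- `ideal (ofIdeal I) = I`. -/
theorem Datum.ideal_ofIdeal (I : Ideal (R ⊗[k] A)) (h : IsFreeOn b I) :
    (Datum.ofIdeal I h).ideal = I := by
  ext y
  rw [Datum.mem_ideal, Datum.ofIdeal_ρR, LinearEquiv.map_eq_zero_iff,
    Ideal.Quotient.eq_zero_iff_mem]

/-- `ofIdeal (ideal d) = d`. -/
theorem Datum.ofIdeal_ideal (d : Datum k A b R) : Datum.ofIdeal d.ideal d.isFreeOn = d := by
  ext a j
  show d.isFreeOn.choose.equivFun (Ideal.Quotient.mk d.ideal ((1 : R) ⊗ₜ[k] a)) j = d.ρ a j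
  rw [d.equivFun_mk _ d.isFreeOn.choose_spec, Datum.ρR_tmul_apply, one_mul]

/-- A datum is determined by its ideal. -/
theorem Datum.ideal_injective : Function.Injective (Datum.ideal : Datum k A b R → _) := by
  intro d d' h
  ext a j
  have h1 : (1 : R) ⊗ₜ[k] a - ∑ l, d.ρR ((1 : R) ⊗ₜ[k] a) l ⊗ₜ[k] b l ∈ d'.ideal :=
    h ▸ d.sub_mem_ideal _
  rw [Datum.mem_ideal, map_sub, Datum.ρR_sum_tmul_b, sub_eq_zero] at h1
  have h2 := congrFun h1 j
  rw [Datum.ρR_tmul_apply, Datum.ρR_tmul_apply, one_mul, one_mul] at h2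
  exact h2.symm

/-- **Universal property of the Hilbert chart, ideal form**: `R`-points of `HilbChart k A b`
are the ideals of `R ⊗[k] A` whose quotient is free on the classes of `1 ⊗ b j`. -/
def idealEquiv : (HilbChart k A b →ₐ[k] R) ≃ {I : Ideal (R ⊗[k] A) // IsFreeOn b I} where
  toFun x := ⟨(Datum.ofHom x).ideal, (Datum.ofHom x).isFreeOn⟩
  invFun I := (Datum.ofIdeal I.1 I.2).toHom
  left_inv x := by
    show (Datum.ofIdeal (Datum.ofHom x).ideal (Datum.ofHom x).isFreeOn).toHom = x
    rw [Datum.ofIdeal_ideal, Datum.toHom_ofHom]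
  right_inv I := by
    apply Subtype.ext
    show (Datum.ofHom (Datum.ofIdeal I.1 I.2).toHom).ideal = I.1
    rw [Datum.ofHom_toHom, Datum.ideal_ofIdeal]

end FreeOn

section Naturality

variable {k : Type u} [CommRing k] {A : Type v} [CommRing A] [Algebra k A] {g : ℕ}
  {b : Fin g → A} {R : Type w} [CommRing R] [Algebra k R] {R' : Type w'} [CommRing R']
  [Algebra k R']

/-- The ideal of a datum is generated by the elements `1 ⊗ a - ∑ l, ρ(a)_l ⊗ b_l`. -/
theorem Datum.ideal_eq_span (d : Datum k A b R) :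
    d.ideal = Ideal.span (Set.range fun a : A =>
      (1 : R) ⊗ₜ[k] a - ∑ l, d.ρ a l ⊗ₜ[k] b l) := by
  apply le_antisymm
  · intro y hy
    have key : ∀ z : R ⊗[k] A, z - ∑ l, d.ρR z l ⊗ₜ[k] b l ∈
        Ideal.span (Set.range fun a : A => (1 : R) ⊗ₜ[k] a - ∑ l, d.ρ a l ⊗ₜ[k] b l) := by
      intro z
      induction z using TensorProduct.induction_on with
      | zero => simp
      | tmul r a =>
        have h1 : r ⊗ₜ[k] a - ∑ l, d.ρR (r ⊗ₜ[k] a) l ⊗ₜ[k] b l =
            (r ⊗ₜ[k] (1 : A)) * ((1 : R) ⊗ₜ[k] a - ∑ l, d.ρ a l ⊗ₜ[k] b l) := by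
          rw [mul_sub, Finset.mul_sum, Algebra.TensorProduct.tmul_mul_tmul, mul_one, one_mul]
          congr 1
          refine Finset.sum_congr rfl fun l _ => ?_
          rw [Algebra.TensorProduct.tmul_mul_tmul, one_mul, Datum.ρR_tmul_apply]
        rw [h1]
        exact Ideal.mul_mem_left _ _ (Ideal.subset_span ⟨a, rfl⟩)
      | add z₁ z₂ h₁ h₂ =>
        have h3 : z₁ + z₂ - ∑ l, d.ρR (z₁ + z₂) l ⊗ₜ[k] b l =
            (z₁ - ∑ l, d.ρR z₁ l ⊗ₜ[k] b l) + (z₂ - ∑ l, d.ρR z₂ l ⊗ₜ[k] b l) := by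
          simp only [map_add, Pi.add_apply, TensorProduct.add_tmul, Finset.sum_add_distrib]
          abel
        rw [h3]
        exact Ideal.add_mem _ h₁ h₂
    have h4 := key y
    rw [(d.mem_ideal y).1 hy] at h4
    simpa using h4
  · refine Ideal.span_le.2 ?_
    rintro _ ⟨a, rfl⟩
    have h := d.sub_mem_ideal ((1 : R) ⊗ₜ[k] a)
    simp only [Datum.ρR_tmul_apply, one_mul] at h
    exact h

/-- Base change of a datum along `φ : R →ₐ[k] R'`. -/
def Datum.map (φ : R →ₐ[k] R') (d : Datum k A b R) : Datum k A b R' where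
  ρ :=
    { toFun := fun a j => φ (d.ρ a j)
      map_add' := fun a a' => by
        funext j
        simp only [map_add, Pi.add_apply]
      map_smul' := fun c a => by
        funext j
        simp only [map_smul, Pi.smul_apply, RingHom.id_apply] }
  ρ_b := fun i j => by
    show φ (d.ρ (b i) j) = _
    rw [d.ρ_b]
    split_ifs <;> simp
  ρ_mul := fun a a' j => by
    show φ (d.ρ (a * a') j) = ∑ l, φ (d.ρ a' l) * φ (d.ρ (a * b l) j)
    rw [d.ρ_mul, map_sum]
    simp only [map_mul]

@[simp]
theorem Datum.map_ρ (φ : R →ₐ[k] R') (d : Datum k A b R) (a : A) (j : Fin g) :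
    (d.map φ).ρ a j = φ (d.ρ a j) := rfl

/-- Naturality of the universal property (coordinate form). -/
theorem Datum.ofHom_comp (x : HilbChart k A b →ₐ[k] R) (φ : R →ₐ[k] R') :
    Datum.ofHom (φ.comp x) = (Datum.ofHom x).map φ := by
  ext a j
  rfl

theorem Datum.toHom_map (d : Datum k A b R) (φ : R →ₐ[k] R') :
    (d.map φ).toHom = φ.comp d.toHom := by
  apply (homEquiv (k := k) (A := A) (b := b) (R := R')).injective
  show Datum.ofHom (d.map φ).toHom = Datum.ofHom (φ.comp d.toHom)
  rw [Datum.ofHom_toHom, Datum.ofHom_comp, Datum.ofHom_toHom]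

/-- Naturality of the universal property (ideal form): the ideal of the base-changed datum is
the extension of the ideal. -/
theorem Datum.map_ideal (φ : R →ₐ[k] R') (d : Datum k A b R) :
    (d.map φ).ideal = d.ideal.map (Algebra.TensorProduct.map φ (AlgHom.id k A)) := by
  rw [Datum.ideal_eq_span, Datum.ideal_eq_span, Ideal.map_span]
  congr 1
  ext z
  constructor
  · rintro ⟨a, rfl⟩
    refine ⟨_, ⟨a, rfl⟩, ?_⟩
    simp only [map_sub, map_sum, Algebra.TensorProduct.map_tmul, map_one, AlgHom.coe_id, id_eq,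
      Datum.map_ρ]
  · rintro ⟨_, ⟨a, rfl⟩, rfl⟩
    refine ⟨a, ?_⟩
    simp only [map_sub, map_sum, Algebra.TensorProduct.map_tmul, map_one, AlgHom.coe_id, id_eq,
      Datum.map_ρ]

theorem Datum.map_ρR (φ : R →ₐ[k] R') (d : Datum k A b R) (y : R ⊗[k] A) (j : Fin g) :
    (d.map φ).ρR (Algebra.TensorProduct.map φ (AlgHom.id k A) y) j = φ (d.ρR y j) := by
  induction y using TensorProduct.induction_on with
  | zero => simp
  | tmul r a =>
    simp only [Algebra.TensorProduct.map_tmul, AlgHom.coe_id, id_eq, Datum.ρR_tmul_apply,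
      Datum.map_ρ, map_mul]
  | add y₁ y₂ h₁ h₂ => simp only [map_add, Pi.add_apply, h₁, h₂]

end Naturality

section Universal

variable (k : Type u) [CommRing k] (A : Type v) [CommRing A] [Algebra k A] {g : ℕ}
  (b : Fin g → A)

/-- The universal datum over the Hilbert chart. -/
def univDatum : Datum k A b (HilbChart k A b) := Datum.ofHom (AlgHom.id k _)

/-- The universal ideal `I_univ ⊆ S_B ⊗[k] A`. -/
def univIdeal : Ideal (HilbChart k A b ⊗[k] A) := (univDatum k A b).ideal

theorem univIdeal_isFreeOn : IsFreeOn b (univIdeal k A b) := (univDatum k A b).isFreeOn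

variable {k A b}
variable {R : Type w} [CommRing R] [Algebra k R]

theorem univDatum_map (x : HilbChart k A b →ₐ[k] R) :
    (univDatum k A b).map x = Datum.ofHom x := by
  ext a j
  rfl

/-- Every point of the Hilbert chart has ideal the pull-back of the universal ideal. -/
theorem ideal_ofHom_eq_map (x : HilbChart k A b →ₐ[k] R) :
    (Datum.ofHom x).ideal =
      (univIdeal k A b).map (Algebra.TensorProduct.map x (AlgHom.id k A)) := by
  rw [← univDatum_map, Datum.map_ideal]
  rfl

/-- The point of the Hilbert chart attached to an ideal with quotient free on `b`: its ideal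
is the given one. -/
theorem ideal_ofHom_toHom_ofIdeal (I : Ideal (R ⊗[k] A)) (h : IsFreeOn b I) :
    (Datum.ofHom (Datum.ofIdeal I h).toHom).ideal = I := by
  rw [Datum.ofHom_toHom, Datum.ideal_ofIdeal]

/-- Two points of the Hilbert chart with the same ideal are equal. -/
theorem hom_ext_of_ideal {x y : HilbChart k A b →ₐ[k] R}
    (h : (Datum.ofHom x).ideal = (Datum.ofHom y).ideal) : x = y := by
  have h1 := Datum.ideal_injective h
  rw [← Datum.toHom_ofHom x, ← Datum.toHom_ofHom y, h1]

end Universal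

section FiniteType

variable {k : Type u} [CommRing k] {A : Type v} [CommRing A] [Algebra k A] {g : ℕ}
  {b : Fin g → A}

theorem adjoin_coord_eq_top :
    Algebra.adjoin k (Set.range fun p : A × Fin g => coord k A b p.1 p.2) = ⊤ := by
  have h1 : Algebra.adjoin k (Set.range (X : A × Fin g → MvPolynomial (A × Fin g) k)) = ⊤ :=
    MvPolynomial.adjoin_range_X
  have h2 : (Algebra.adjoin k (Set.range (X : A × Fin g → MvPolynomial (A × Fin g) k))).map
      (Ideal.Quotient.mkₐ k (relIdeal k A b)) = ⊤ := by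
    rw [h1, Algebra.map_top]
    exact (AlgHom.range_eq_top _).2 (Ideal.Quotient.mkₐ_surjective k _)
  rw [← h2, AlgHom.map_adjoin, ← Set.range_comp]
  rfl

/-- Generation by the coordinates of `1` and of the `y * b l`, `y` in a generating set of
`A`. -/
theorem adjoin_coord_of_adjoin_eq_top (s : Set A) (hs : Algebra.adjoin k s = ⊤) :
    Algebra.adjoin k
      ((Set.range fun l : Fin g => coord k A b 1 l) ∪
        (Set.range fun p : s × Fin g × Fin g => coord k A b ((p.1 : A) * b p.2.1) p.2.2)) =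
      ⊤ := by
  set T : Subalgebra k (HilbChart k A b) := Algebra.adjoin k
      ((Set.range fun l : Fin g => coord k A b 1 l) ∪
        (Set.range fun p : s × Fin g × Fin g => coord k A b ((p.1 : A) * b p.2.1) p.2.2))
    with hT
  have hone : ∀ l, coord k A b 1 l ∈ T := fun l =>
    Algebra.subset_adjoin (Or.inl ⟨l, rfl⟩)
  have hgen : ∀ (y : A) (hy : y ∈ s) (l j : Fin g), coord k A b (y * b l) j ∈ T :=
    fun y hy l j => Algebra.subset_adjoin (Or.inr ⟨⟨⟨y, hy⟩, l, j⟩, rfl⟩)
  -- `Q a`: multiplication by `a` preserves "all coordinates in `T`".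
  have hQ : ∀ a : A, ∀ a' : A, (∀ j, coord k A b a' j ∈ T) → ∀ j, coord k A b (a * a') j ∈ T := by
    intro a
    have ha : a ∈ Algebra.adjoin k s := by rw [hs]; trivial
    induction ha using Algebra.adjoin_induction with
    | mem y hy =>
      intro a' ha' j
      rw [coord_mul]
      exact Subalgebra.sum_mem _ fun l _ => Subalgebra.mul_mem _ (ha' l) (hgen y hy l j)
    | algebraMap c =>
      intro a' ha' j
      rw [← Algebra.smul_def, coord_smul]
      exact Subalgebra.smul_mem _ (ha' j) c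
    | add a₁ a₂ _ _ h₁ h₂ =>
      intro a' ha' j
      rw [add_mul, coord_add]
      exact Subalgebra.add_mem _ (h₁ a' ha' j) (h₂ a' ha' j)
    | mul a₁ a₂ _ _ h₁ h₂ =>
      intro a' ha' j
      rw [mul_assoc]
      exact h₁ _ (h₂ a' ha') j
  have hall : ∀ (a : A) (j : Fin g), coord k A b a j ∈ T := by
    intro a j
    have := hQ a 1 hone j
    rwa [mul_one] at this
  apply top_le_iff.1
  rw [← adjoin_coord_eq_top (k := k) (A := A) (b := b)]
  refine Algebra.adjoin_le ?_
  rintro _ ⟨p, rfl⟩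
  exact hall p.1 p.2

/-- The Hilbert chart of a finite type algebra is of finite type. -/
instance finiteType [Algebra.FiniteType k A] : Algebra.FiniteType k (HilbChart k A b) := by
  obtain ⟨s, hs⟩ := (Algebra.FiniteType.out : (⊤ : Subalgebra k A).FG)
  have hfin : ((Set.range fun l : Fin g => coord k A b 1 l) ∪
        (Set.range fun p : (↑s : Set A) × Fin g × Fin g =>
          coord k A b ((p.1 : A) * b p.2.1) p.2.2)).Finite :=
    (Set.finite_range _).union (Set.finite_range _)
  refine ⟨⟨hfin.toFinset, ?_⟩⟩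
  rw [Set.Finite.coe_toFinset]
  exact adjoin_coord_of_adjoin_eq_top (s : Set A) hs

end FiniteType

end

end Fermat.Agent.S25.ATLAS.HC2928
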