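/-
S25 (Jacobian), package ATLAS (old A6): the zero ideal of a section of an invertible module.
Single-ring algebra behind "zero scheme of the canonical section" and the two round trips of the
chart bijection (route 2.4 of notes/S25/S25_route.md).  Mathlib only.
Author: helper2890.
-/
import Mathlib

set_option autoImplicit false

namespace Fermat.Agent.S25.ATLAS.H2890

open TensorProduct Module

section Basic

variable (B : Type*) [CommRing B] {M : Type*} [AddCommGroup M] [Module B M]
  {M' : Type*} [AddCommGroup M'] [Module B M']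

/-- The zero ideal of an element `s` of a module `M`: the image of `s^∨ : M^∨ → B`,
`φ ↦ φ s`.  For `M` invertible this is the ideal of the zero scheme of the section `s`. -/
def zeroIdeal (s : M) : Ideal B := LinearMap.range (Module.Dual.eval B M s)

variable {B}

theorem mem_zeroIdeal {s : M} {b : B} :
    b ∈ zeroIdeal B s ↔ ∃ φ : Module.Dual B M, φ s = b := by
  simp [zeroIdeal, LinearMap.mem_range, Module.Dual.eval_apply]

theorem apply_mem_zeroIdeal (φ : Module.Dual B M) (s : M) : φ s ∈ zeroIdeal B s :=
  mem_zeroIdeal.2 ⟨φ, rfl⟩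

/-- The zero ideal can only grow along a linear map. -/
theorem zeroIdeal_map_le (f : M →ₗ[B] M') (s : M) : zeroIdeal B (f s) ≤ zeroIdeal B s := by
  intro b hb
  obtain ⟨φ, rfl⟩ := mem_zeroIdeal.1 hb
  exact mem_zeroIdeal.2 ⟨φ.comp f, rfl⟩

/-- The zero ideal is invariant under isomorphisms. -/
theorem zeroIdeal_equiv (e : M ≃ₗ[B] M') (s : M) : zeroIdeal B (e s) = zeroIdeal B s := by
  refine le_antisymm (zeroIdeal_map_le e.toLinearMap s) ?_
  have := zeroIdeal_map_le e.symm.toLinearMap (e s)
  simpa using this

theorem zeroIdeal_smul_le (b : B) (s : M) : zeroIdeal B (b • s) ≤ zeroIdeal B s := by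
  intro c hc
  obtain ⟨φ, rfl⟩ := mem_zeroIdeal.1 hc
  exact mem_zeroIdeal.2 ⟨b • φ, by simp⟩

/-- The zero ideal does not change when the section is multiplied by a unit. -/
theorem zeroIdeal_unit_smul {b : B} (hb : IsUnit b) (s : M) :
    zeroIdeal B (b • s) = zeroIdeal B s := by
  refine le_antisymm (zeroIdeal_smul_le b s) ?_
  obtain ⟨u, rfl⟩ := hb
  have := zeroIdeal_smul_le (↑u⁻¹ : B) ((u : B) • s)
  rwa [smul_smul, Units.inv_mul, one_smul] at this

theorem zeroIdeal_zero : zeroIdeal B (0 : M) = ⊥ := by
  refine le_antisymm ?_ bot_le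
  intro b hb
  obtain ⟨φ, rfl⟩ := mem_zeroIdeal.1 hb
  simp

/-- In the ring itself the zero ideal of `b` is `(b)`. -/
theorem zeroIdeal_self (b : B) : zeroIdeal B (b : B) = Ideal.span {b} := by
  refine le_antisymm ?_ ?_
  · intro c hc
    obtain ⟨φ, rfl⟩ := mem_zeroIdeal.1 hc
    have : φ b = b * φ 1 := by
      have := φ.map_smul b 1
      simpa [smul_eq_mul] using this
    rw [this]
    exact Ideal.mul_mem_right _ _ (Ideal.subset_span rfl)
  · rw [Ideal.span_singleton_le_iff_mem]
    exact mem_zeroIdeal.2 ⟨LinearMap.id, rfl⟩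

end Basic

section Invertible

variable {B : Type*} [CommRing B] {M : Type*} [AddCommGroup M] [Module B M]
  [Module.Invertible B M]

/-- The rank one identity: on an invertible module, `φ(m₁) m₂ = φ(m₂) m₁`. -/
theorem dual_apply_smul_comm (φ : Module.Dual B M) (m₁ m₂ : M) : φ m₁ • m₂ = φ m₂ • m₁ := by
  have h := Module.Invertible.tmul_comm (R := B) (m₁ := m₁) (m₂ := m₂)
  have := congrArg (TensorProduct.lift ((LinearMap.lsmul B M).comp φ)) h
  simpa using this

theorem dual_apply_mul_comm (φ ψ : Module.Dual B M) (m₁ m₂ : M) :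
    φ m₁ * ψ m₂ = φ m₂ * ψ m₁ := by
  have := congrArg ψ (dual_apply_smul_comm φ m₁ m₂)
  simpa using this

/-- A "partition of unity" `1 = ∑ φᵢ(mᵢ)` on an invertible module. -/
theorem exists_finset_sum_dual_apply_eq_one (B : Type*) [CommRing B] (M : Type*) [AddCommGroup M]
    [Module B M] [Module.Invertible B M] :
    ∃ S : Finset (Module.Dual B M × M), ∑ i ∈ S, i.1 i.2 = 1 := by
  obtain ⟨S, hS⟩ := ((Module.Invertible.linearEquiv B M).symm 1).exists_finset
  refine ⟨S, ?_⟩
  have := congrArg (Module.Invertible.linearEquiv B M) hS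
  simpa [Module.Invertible.linearEquiv] using this.symm

/-- `s ∈ 𝔞(s) M`. -/
theorem mem_zeroIdeal_smul_top (s : M) : s ∈ zeroIdeal B s • (⊤ : Submodule B M) := by
  obtain ⟨S, hS⟩ := exists_finset_sum_dual_apply_eq_one B M
  have hs : ∑ i ∈ S, i.1 s • i.2 = s := by
    calc ∑ i ∈ S, i.1 s • i.2 = ∑ i ∈ S, i.1 i.2 • s :=
          Finset.sum_congr rfl fun i _ => dual_apply_smul_comm i.1 s i.2
      _ = (1 : B) • s := by rw [← hS, Finset.sum_smul]
      _ = s := one_smul _ _
  have hmem : ∑ i ∈ S, i.1 s • i.2 ∈ zeroIdeal B s • (⊤ : Submodule B M) :=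
    Submodule.sum_mem _ fun i _ =>
      Submodule.smul_mem_smul (apply_mem_zeroIdeal _ _) Submodule.mem_top
  rwa [hs] at hmem

/-- `𝔞(s) M = B s` for a section `s` of an invertible module. -/
theorem zeroIdeal_smul_top (s : M) : zeroIdeal B s • (⊤ : Submodule B M) = Submodule.span B {s} := by
  refine le_antisymm ?_ ?_
  · rw [Submodule.smul_le]
    intro b hb m _
    obtain ⟨φ, rfl⟩ := mem_zeroIdeal.1 hb
    rw [dual_apply_smul_comm]
    exact Submodule.smul_mem _ _ (Submodule.mem_span_singleton_self s)
  · rw [Submodule.span_singleton_le_iff_mem]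
    exact mem_zeroIdeal_smul_top s

/-- `M / B s ≅ (B / 𝔞(s)) ⊗ M`: the cokernel of a section is the restriction to its zero scheme. -/
noncomputable def quotTensorEquivQuotSpan (s : M) :
    (B ⧸ zeroIdeal B s) ⊗[B] M ≃ₗ[B] M ⧸ Submodule.span B {s} :=
  (TensorProduct.quotTensorEquivQuotSMul M (zeroIdeal B s)).trans
    (Submodule.quotEquivOfEq _ _ (zeroIdeal_smul_top s))

/-- For a regular section `s` (`b ↦ b • s` injective), `s^∨ : M^∨ → B` is injective. -/
theorem eval_injective_of_smul_injective {s : M} (hs : Function.Injective fun b : B => b • s) :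
    Function.Injective (Module.Dual.eval B M s) := by
  rw [injective_iff_map_eq_zero]
  intro φ hφ
  have hφ' : φ s = 0 := hφ
  ext m
  apply hs
  simp only [zero_smul, LinearMap.zero_apply]
  rw [dual_apply_smul_comm φ m s, hφ', zero_smul]

/-- Conversely, if `s^∨` is injective then `s` is a regular section. -/
theorem smul_injective_of_eval_injective {s : M}
    (h : Function.Injective (Module.Dual.eval B M s)) : Function.Injective fun b : B => b • s := by
  intro b c hbc
  have hbc' : b • s = c • s := hbc
  have h1 : ∀ φ : Module.Dual B M, b • φ = c • φ := by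
    intro φ
    apply h
    simp only [Module.Dual.eval_apply, LinearMap.smul_apply]
    rw [← map_smul, ← map_smul, hbc']
  exact FaithfulSMul.eq_of_smul_eq_smul h1

theorem smul_injective_iff_eval_injective {s : M} :
    (Function.Injective fun b : B => b • s) ↔ Function.Injective (Module.Dual.eval B M s) :=
  ⟨eval_injective_of_smul_injective, smul_injective_of_eval_injective⟩

/-- For a regular section `s` of an invertible module, `M^∨ ≅ 𝔞(s)` via `φ ↦ φ s`. -/
noncomputable def dualEquivZeroIdeal {s : M} (hs : Function.Injective fun b : B => b • s) :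
    Module.Dual B M ≃ₗ[B] zeroIdeal B s :=
  LinearEquiv.ofInjective (Module.Dual.eval B M s) (eval_injective_of_smul_injective hs)

@[simp]
theorem dualEquivZeroIdeal_apply {s : M} (hs : Function.Injective fun b : B => b • s)
    (φ : Module.Dual B M) : (dualEquivZeroIdeal hs φ : B) = φ s := rfl

/-- The zero ideal of a regular section of an invertible module is an invertible module. -/
theorem invertible_zeroIdeal {s : M} (hs : Function.Injective fun b : B => b • s) :
    Module.Invertible B (zeroIdeal B s) :=
  Module.Invertible.congr (dualEquivZeroIdeal hs)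

/-- Round trip `(M, s) ↦ 𝔞(s) ↦ (𝔞(s)^∨, 1)`: for a regular section `s` of an invertible module,
`M ≅ 𝔞(s)^∨` ... -/
noncomputable def equivDualZeroIdeal {s : M} (hs : Function.Injective fun b : B => b • s) :
    M ≃ₗ[B] Module.Dual B (zeroIdeal B s) :=
  (Module.evalEquiv B M).trans (dualEquivZeroIdeal hs).symm.dualMap

theorem equivDualZeroIdeal_apply {s : M} (hs : Function.Injective fun b : B => b • s)
    (m : M) (φ : Module.Dual B M) :
    equivDualZeroIdeal hs m (dualEquivZeroIdeal hs φ) = φ m := by
  simp [equivDualZeroIdeal]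

/-- ... and this isomorphism sends `s` to the canonical section `1_D` (the inclusion
`𝔞(s) ↪ B`). -/
theorem equivDualZeroIdeal_self {s : M} (hs : Function.Injective fun b : B => b • s) :
    equivDualZeroIdeal hs s = (zeroIdeal B s).subtype := by
  ext a
  obtain ⟨φ, rfl⟩ := (dualEquivZeroIdeal hs).surjective a
  rw [equivDualZeroIdeal_apply]
  rfl

/-- A section generates an invertible module iff its zero ideal is the unit ideal. -/
theorem zeroIdeal_eq_top_iff {s : M} :
    zeroIdeal B s = ⊤ ↔ Submodule.span B {s} = ⊤ := by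
  constructor
  · intro h
    rw [← zeroIdeal_smul_top, h, Submodule.top_smul]
  · intro h
    have hsurj : Function.Surjective (LinearMap.toSpanSingleton B M s) := by
      intro m
      have hm : m ∈ Submodule.span B {s} := h ▸ Submodule.mem_top
      obtain ⟨b, rfl⟩ := Submodule.mem_span_singleton.1 hm
      exact ⟨b, rfl⟩
    have hbij := Module.Invertible.bijective_of_surjective hsurj
    let e : B ≃ₗ[B] M := LinearEquiv.ofBijective _ hbij
    have he : e 1 = s := by simp [e]
    rw [← he, zeroIdeal_equiv, zeroIdeal_self]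
    simp

/-- A generating section of an invertible module is regular. -/
theorem smul_injective_of_span_eq_top {s : M} (h : Submodule.span B {s} = ⊤) :
    Function.Injective fun b : B => b • s := by
  have hsurj : Function.Surjective (LinearMap.toSpanSingleton B M s) := by
    intro m
    have hm : m ∈ Submodule.span B {s} := h ▸ Submodule.mem_top
    obtain ⟨b, rfl⟩ := Submodule.mem_span_singleton.1 hm
    exact ⟨b, rfl⟩
  exact (Module.Invertible.bijective_of_surjective hsurj).1

end Invertible

section InvertibleIdeal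

variable {B : Type*} [CommRing B] (I : Ideal B)

/-- The canonical section `1_D` of `O(D) = I^∨`: the inclusion `I ↪ B`. -/
def canonicalSection : Module.Dual B I := I.subtype

@[simp]
theorem canonicalSection_apply (a : I) : canonicalSection I a = (a : B) := rfl

variable [Module.Invertible B I]

/-- Round trip `I ↦ (I^∨, 1_D) ↦ 𝔞(1_D)`: the zero ideal of the canonical section of `I^∨`
is `I`. -/
theorem zeroIdeal_canonicalSection : zeroIdeal B (canonicalSection I) = I := by
  refine le_antisymm ?_ ?_
  · intro b hb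
    obtain ⟨Φ, rfl⟩ := mem_zeroIdeal.1 hb
    obtain ⟨a, rfl⟩ := (Module.bijective_dual_eval B I).2 Φ
    simp [Module.Dual.eval_apply]
  · intro a ha
    exact mem_zeroIdeal.2 ⟨Module.Dual.eval B I ⟨a, ha⟩, rfl⟩

/-- The canonical section of `I^∨` is regular. -/
theorem smul_injective_canonicalSection :
    Function.Injective fun b : B => b • canonicalSection I := by
  intro b c hbc
  have hbc' : b • canonicalSection I = c • canonicalSection I := hbc
  have h1 : ∀ a : I, b • a = c • a := by
    intro a
    apply Subtype.ext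
    have := congrArg (fun φ : Module.Dual B I => φ a) hbc'
    simpa using this
  exact FaithfulSMul.eq_of_smul_eq_smul h1

end InvertibleIdeal

section BaseChange

variable {B : Type*} [CommRing B] {M : Type*} [AddCommGroup M] [Module B M]
  {B' : Type*} [CommRing B'] [Algebra B B'] {M' : Type*} [AddCommGroup M'] [Module B M']
  [Module B' M'] [IsScalarTower B B' M']

/-- For a finite projective module, the zero ideal of the image of `s` under any `B`-linear map
to a `B'`-module is contained in the extension of the zero ideal of `s`. -/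
theorem zeroIdeal_map_le_map [Module.Finite B M] [Module.Projective B M] (f : M →ₗ[B] M')
    (s : M) : zeroIdeal B' (f s) ≤ Ideal.map (algebraMap B B') (zeroIdeal B s) := by
  obtain ⟨n, p, q, -, -, hpq⟩ := Module.Finite.exists_comp_eq_id_of_projective B M
  intro b hb
  obtain ⟨ψ, rfl⟩ := mem_zeroIdeal.1 hb
  have hs : s = ∑ i, q s i • p (fun j => if i = j then 1 else 0) := by
    have h1 : p (q s) = s := by simpa using congrArg (fun h => h s) hpq
    rw [← LinearMap.pi_apply_eq_sum_univ, h1]
  have key : ψ (f s) = ∑ i, algebraMap B B' (q s i) * ψ (f (p fun j => if i = j then 1 else 0)) := by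
    conv_lhs => rw [hs]
    simp only [map_sum, map_smul]
    refine Finset.sum_congr rfl fun i _ => ?_
    rw [← algebraMap_smul B' (q s i) (f (p fun j => if i = j then 1 else 0)), map_smul,
      smul_eq_mul]
  rw [key]
  refine Ideal.sum_mem _ fun i _ => ?_
  exact Ideal.mul_mem_right _ _
    (Ideal.mem_map_of_mem _ (mem_zeroIdeal.2 ⟨(LinearMap.proj i).comp q, rfl⟩))

/-- Along a base change, the extension of the zero ideal is contained in the zero ideal of the
base-changed section. -/
theorem map_zeroIdeal_le_of_isBaseChange {f : M →ₗ[B] M'} (hf : IsBaseChange B' f) (s : M) :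
    Ideal.map (algebraMap B B') (zeroIdeal B s) ≤ zeroIdeal B' (f s) := by
  rw [Ideal.map_le_iff_le_comap]
  intro b hb
  obtain ⟨φ, rfl⟩ := mem_zeroIdeal.1 hb
  refine mem_zeroIdeal.2 ⟨hf.lift ((Algebra.linearMap B B').comp φ), ?_⟩
  rw [hf.lift_eq]
  rfl

/-- The zero ideal of a section of a finite projective module commutes with base change. -/
theorem zeroIdeal_of_isBaseChange [Module.Finite B M] [Module.Projective B M] {f : M →ₗ[B] M'}
    (hf : IsBaseChange B' f) (s : M) :
    zeroIdeal B' (f s) = Ideal.map (algebraMap B B') (zeroIdeal B s) :=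
  le_antisymm (zeroIdeal_map_le_map f s) (map_zeroIdeal_le_of_isBaseChange hf s)

/-- The zero ideal of `1 ⊗ s` in `B' ⊗ M` is the extension of the zero ideal of `s`. -/
theorem zeroIdeal_one_tmul [Module.Finite B M] [Module.Projective B M] (s : M) :
    zeroIdeal B' ((1 : B') ⊗ₜ[B] s) = Ideal.map (algebraMap B B') (zeroIdeal B s) :=
  zeroIdeal_of_isBaseChange (TensorProduct.isBaseChange B M B') s

end BaseChange

section Compat

variable {B : Type*} [CommRing B] {M : Type*} [AddCommGroup M] [Module B M]
  [Module.Invertible B M]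
  {B' : Type*} [CommRing B'] [Algebra B B'] {M' : Type*} [AddCommGroup M'] [Module B M']
  [Module B' M'] [IsScalarTower B B' M'] [Module.Invertible B' M']

/-- Compatibility of the round-trip isomorphism `M ≅ 𝔞(s)^∨` with base change (in particular with
restriction to the overlap of two charts): if `f : M → M'` is a base change along `B → B'`,
then `e'(f m)(ρ a) = ρ (e(m)(a))` for `a ∈ 𝔞(s)`. -/
theorem equivDualZeroIdeal_baseChange {f : M →ₗ[B] M'} (hf : IsBaseChange B' f) {s : M}
    (hs : Function.Injective fun b : B => b • s)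
    (hs' : Function.Injective fun b : B' => b • f s) (m : M) (a : zeroIdeal B s)
    (ha' : algebraMap B B' a ∈ zeroIdeal B' (f s)) :
    equivDualZeroIdeal hs' (f m) ⟨algebraMap B B' a, ha'⟩ =
      algebraMap B B' (equivDualZeroIdeal hs m a) := by
  obtain ⟨φ, rfl⟩ := (dualEquivZeroIdeal hs).surjective a
  rw [equivDualZeroIdeal_apply]
  have h1 : (⟨algebraMap B B' (dualEquivZeroIdeal hs φ : B), ha'⟩ : zeroIdeal B' (f s)) =
      dualEquivZeroIdeal hs' (hf.lift ((Algebra.linearMap B B').comp φ)) := by
    apply Subtype.ext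
    change algebraMap B B' (φ s) = (hf.lift ((Algebra.linearMap B B').comp φ)) (f s)
    rw [hf.lift_eq]
    rfl
  rw [h1, equivDualZeroIdeal_apply, hf.lift_eq]
  rfl

end Compat

section Tensor

variable {B : Type*} [CommRing B] {M : Type*} [AddCommGroup M] [Module B M]
  [Module.Invertible B M] {N : Type*} [AddCommGroup N] [Module B N] [Module.Invertible B N]

/-- A finite "dual basis" expansion on an invertible module. -/
theorem exists_finset_sum_dual_apply_smul_eq (B : Type*) [CommRing B] (M : Type*)
    [AddCommGroup M] [Module B M] [Module.Invertible B M] :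
    ∃ S : Finset (Module.Dual B M × M), ∀ s : M, ∑ i ∈ S, i.1 s • i.2 = s := by
  obtain ⟨S, hS⟩ := exists_finset_sum_dual_apply_eq_one B M
  refine ⟨S, fun s => ?_⟩
  calc ∑ i ∈ S, i.1 s • i.2 = ∑ i ∈ S, i.1 i.2 • s :=
        Finset.sum_congr rfl fun i _ => dual_apply_smul_comm i.1 s i.2
    _ = (1 : B) • s := by rw [← hS, Finset.sum_smul]
    _ = s := one_smul _ _

/-- Zero ideals multiply under tensor product of sections: `𝔞(s ⊗ t) = 𝔞(s) 𝔞(t)`
("divisors add"). -/
theorem zeroIdeal_tmul (s : M) (t : N) :
    zeroIdeal B (s ⊗ₜ[B] t) = zeroIdeal B s * zeroIdeal B t := by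
  refine le_antisymm ?_ ?_
  · intro b hb
    obtain ⟨χ, rfl⟩ := mem_zeroIdeal.1 hb
    obtain ⟨S, hS⟩ := exists_finset_sum_dual_apply_smul_eq B M
    obtain ⟨T, hT⟩ := exists_finset_sum_dual_apply_smul_eq B N
    have key : χ (s ⊗ₜ[B] t) = ∑ i ∈ S, ∑ j ∈ T, (i.1 s * j.1 t) * χ (i.2 ⊗ₜ[B] j.2) := by
      conv_lhs => rw [← hS s, ← hT t]
      simp only [TensorProduct.sum_tmul, TensorProduct.tmul_sum, map_sum,
        TensorProduct.smul_tmul_smul, map_smul, smul_eq_mul]
      exact Finset.sum_comm
    rw [key]
    refine Ideal.sum_mem _ fun i _ => Ideal.sum_mem _ fun j _ => ?_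
    exact Ideal.mul_mem_right _ _
      (Ideal.mul_mem_mul (apply_mem_zeroIdeal _ _) (apply_mem_zeroIdeal _ _))
  · rw [Ideal.mul_le]
    intro a ha b hb
    obtain ⟨φ, rfl⟩ := mem_zeroIdeal.1 ha
    obtain ⟨ψ, rfl⟩ := mem_zeroIdeal.1 hb
    exact mem_zeroIdeal.2 ⟨TensorProduct.dualDistrib B M N (φ ⊗ₜ ψ), by simp⟩

end Tensor

end Fermat.Agent.S25.ATLAS.H2890
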