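/-
S25 package ATLAS, sub-stub RIG: rigidity is stable under base change.
Statement FROZEN (captain helper6325).  DONE: proved in `ATLAS/RIG/Basic.lean` (no sorry).
-/
import Fermat.Agent.S25.ATLAS.Defs
import Fermat.Agent.S25.BC
import Fermat.Agent.S25.ATLAS.RIG.Basic

set_option autoImplicit false

universe u

namespace Fermat.Agent.S25.ATLAS

open scoped TensorProduct

open GluedModule

variable {k : Type u} [Field k] (𝒞 : CurveData k)

/-- (RIG) `R' ⊗_R (ε-fibre of L) = ε-fibre of L'`: rigid modules stay rigid under base change.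
No line bundle hypothesis. -/
theorem rigid_of_isBC {R R' : Type u} [CommRing R] [Algebra k R] [CommRing R'] [Algebra k R']
    (φ : R →ₐ[k] R') (L : GluedModule (𝒞.chart R)) (L' : GluedModule (𝒞.chart R'))
    (hL : Rigid 𝒞 L) (h : IsBC (𝒞.chartHom φ) L L') : Rigid 𝒞 L' :=
  RIG.rigid_of_isBC 𝒞 φ L L' hL h

end Fermat.Agent.S25.ATLAS
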