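/-
S25 package ATLAS, sub-stub DIV: the atlas of divisor charts.
Statement FROZEN (captain helper6325).  DERIVED (no sorry of its own) in `ATLAS/DIV/Assembly.lean`
from the 8 leaves `ATLAS/DIV/{BCfwd,BCback,LG,Spread,Chi,GoodMem,RigidCan,FinType}.lean`
(vocabulary `ATLAS/DIV/Defs.lean`).
-/
import Fermat.Agent.S25.ATLAS.Defs
import Fermat.Agent.S25.BC
import Fermat.Agent.S25.ATLAS.DIV.Assembly

set_option autoImplicit false

universe u

namespace Fermat.Agent.S25.ATLAS

open scoped TensorProduct

open GluedModule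

variable {k : Type u} [Field k] (𝒞 : CurveData k) [IsAlgClosed k]

/-- (DIV) Hilbert charts `S_b[1/h]` with `Q = O(D_univ)`. -/
theorem exists_divAtlas : Nonempty (DivAtlas 𝒞) :=
  divAtlas_of_leaves 𝒞

end Fermat.Agent.S25.ATLAS
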