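/-
S25 package ATLAS, sub-stub LIFT: rigid line bundles lift along square-zero extensions.
Statement FROZEN (captain helper6325); replace the `sorry` (helper files under
`Fermat/Agent/S25/ATLAS/LIFT/`, namespace `Fermat.Agent.S25.ATLAS.LIFT`).
-/
import Fermat.Agent.S25.ATLAS.Defs
import Fermat.Agent.S25.BC
import Fermat.Agent.S25.ATLAS.LIFT.H5230.LiftRigid

set_option autoImplicit false

universe u

namespace Fermat.Agent.S25.ATLAS

open scoped TensorProduct

open GluedModule

variable {k : Type u} [Field k] (𝒞 : CurveData k)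

/-- (LIFT) Lift `N₁`, `N₂` (invertible modules lift along nilpotent ideals), lift the gluing
isomorphism over `B₁₂` (two charts: no cocycle condition), lift a generator of the `ε`-fibre. -/
theorem exists_lift {R : Type u} [CommRing R] [Algebra k R] (I : Ideal R) (hI : I ^ 2 = ⊥)
    (M₀ : GluedModule (𝒞.chart (R ⧸ I))) (h₀ : M₀.IsLineBundle) (hr : Rigid 𝒞 M₀) :
    ∃ M : GluedModule (𝒞.chart R), M.IsLineBundle ∧ Rigid 𝒞 M ∧
      IsBC (𝒞.chartHom (Ideal.Quotient.mkₐ k I)) M M₀ :=
  LIFT.H5230.exists_rigid_lift 𝒞 I hI M₀ h₀ hr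

end Fermat.Agent.S25.ATLAS
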