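/-
S25 package ATLAS, sub-stub TW: twists by `k`-divisors of degree `genus`, and (Good Δ).
Statement FROZEN (captain helper6325); replace the `sorry` (helper files under
`Fermat/Agent/S25/ATLAS/TW/`, namespace `Fermat.Agent.S25.ATLAS.TW`).
-/
import Fermat.Agent.S25.ATLAS.Defs
import Fermat.Agent.S25.BC
import Fermat.Agent.S25.ATLAS.TW.Plan

set_option autoImplicit false

universe u

namespace Fermat.Agent.S25.ATLAS

open scoped TensorProduct

open GluedModule

variable {k : Type u} [Field k] (𝒞 : CurveData k) [IsAlgClosed k]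

/-- (TW) `L ↦ L(Δ)` for `Δ = x₁ + … + x_g`, `x_j` `k`-points of `U₁`, `x_j ≠ ε`. -/
theorem exists_twistFamily : Nonempty (TwistFamily 𝒞) :=
  TW.exists_twistFamily_of_leaves 𝒞

end Fermat.Agent.S25.ATLAS
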