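/-
S25 package ATLAS: assembly of `ChartAtlas` from the four sub-stubs RIG, LIFT, DIV, TW
(pure logic + the BC stubs).  Captain helper6325.  No sorry of its own.
-/
import Fermat.Agent.S25.ATLAS.RIG
import Fermat.Agent.S25.ATLAS.LIFT
import Fermat.Agent.S25.ATLAS.DIV
import Fermat.Agent.S25.ATLAS.TW

set_option autoImplicit false

universe u

namespace Fermat.Agent.S25.ATLAS

open scoped TensorProduct

open GluedModule

variable {k : Type u} [Field k] (𝒞 : CurveData k)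

/-- Every prime of a `k`-algebra is the kernel of a geometric point (in the same universe). -/
theorem exists_geomPoint {R : Type u} [CommRing R] [Algebra k R] (p : PrimeSpectrum R) :
    ∃ (κ : Type u) (_ : Field κ) (_ : IsAlgClosed κ) (_ : Algebra k κ) (φ : R →ₐ[k] κ),
      RingHom.ker (φ : R →+* κ) = p.asIdeal := by
  let F := p.asIdeal.ResidueField
  let f : R →+* AlgebraicClosure F := (algebraMap F (AlgebraicClosure F)).comp (algebraMap R F)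
  let _ : Algebra k (AlgebraicClosure F) := (f.comp (algebraMap k R)).toAlgebra
  refine ⟨AlgebraicClosure F, inferInstance, inferInstance, inferInstance,
    ⟨f, fun c => rfl⟩, ?_⟩
  ext x
  change f x = 0 ↔ x ∈ p.asIdeal
  simp only [f, RingHom.comp_apply]
  rw [map_eq_zero_iff _ (algebraMap F (AlgebraicClosure F)).injective]
  exact Ideal.algebraMap_residueField_eq_zero

variable (𝒟 : DivAtlas 𝒞) (T : TwistFamily 𝒞)

/-- The chart predicate of the assembled atlas. -/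
def chartPred (i : T.Δ × 𝒟.J) (R : Type u) [CommRing R] [Algebra k R]
    (L : GluedModule (𝒞.chart R)) : Prop :=
  L.IsLineBundle ∧ ∃ M : GluedModule (𝒞.chart R), M.IsLineBundle ∧ T.tw i.1 R L M ∧
    InChart 𝒞 (𝒟.Q i.2) R M

/-- The chart locus of the assembled atlas. -/
def locusSet (i : T.Δ × 𝒟.J) (R : Type u) [CommRing R] [Algebra k R]
    (L : GluedModule (𝒞.chart R)) : Set (PrimeSpectrum R) :=
  {p | ∃ (κ : Type u) (_ : Field κ) (_ : IsAlgClosed κ) (_ : Algebra k κ) (φ : R →ₐ[k] κ)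
      (L' : GluedModule (𝒞.chart κ)), RingHom.ker (φ : R →+* κ) = p.asIdeal ∧
        IsBC (𝒞.chartHom φ) L L' ∧ chartPred 𝒞 𝒟 T i κ L'}

variable {𝒞 𝒟 T}

theorem inChart_of_iso {S : Type u} [CommRing S] [Algebra k S] {Q : GluedModule (𝒞.chart S)}
    {R : Type u} [CommRing R] [Algebra k R] {M M' : GluedModule (𝒞.chart R)}
    (h : InChart 𝒞 Q R M) (e : Nonempty (M.Iso M')) : InChart 𝒞 Q R M' := by
  obtain ⟨ψ, hψ⟩ := h
  exact ⟨ψ, isBC_of_iso 𝒞 ψ Q Q M M' hψ ⟨Iso.refl Q⟩ e⟩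

theorem inChart_bc {S : Type u} [CommRing S] [Algebra k S] {Q : GluedModule (𝒞.chart S)}
    {R R' : Type u} [CommRing R] [Algebra k R] [CommRing R'] [Algebra k R']
    (φ : R →ₐ[k] R') {M : GluedModule (𝒞.chart R)} {M' : GluedModule (𝒞.chart R')}
    (h : InChart 𝒞 Q R M) (hM' : IsBC (𝒞.chartHom φ) M M') : InChart 𝒞 Q R' M' := by
  obtain ⟨ψ, hψ⟩ := h
  exact ⟨φ.comp ψ, isBC_comp 𝒞 ψ φ Q M M' hψ hM'⟩

theorem chartPred_bc (i : T.Δ × 𝒟.J) {R R' : Type u} [CommRing R] [Algebra k R] [CommRing R']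
    [Algebra k R'] (φ : R →ₐ[k] R') (L : GluedModule (𝒞.chart R))
    (L' : GluedModule (𝒞.chart R')) (h : chartPred 𝒞 𝒟 T i R L)
    (hL' : IsBC (𝒞.chartHom φ) L L') : chartPred 𝒞 𝒟 T i R' L' := by
  obtain ⟨hL, M, hM, htw, hin⟩ := h
  obtain ⟨M', hM'⟩ := exists_isBC 𝒞 φ M
  exact ⟨isLineBundle_of_isBC 𝒞 φ L L' hL hL', M', isLineBundle_of_isBC 𝒞 φ M M' hM hM',
    T.bc i.1 φ L M L' M' hL hM htw hL' hM', inChart_bc φ hin hM'⟩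

/-- Spreading out, `M`-form. -/
theorem spread_M (i : T.Δ × 𝒟.J) {R : Type u} [CommRing R] [Algebra k R]
    (L M : GluedModule (𝒞.chart R)) (hL : L.IsLineBundle) (hM : M.IsLineBundle)
    (hMr : Rigid 𝒞 M) (htw : T.tw i.1 R L M)
    (κ : Type u) [Field κ] [IsAlgClosed κ] [Algebra k κ] (φ₀ : R →ₐ[k] κ)
    (L₀ : GluedModule (𝒞.chart κ)) (hL₀ : IsBC (𝒞.chartHom φ₀) L L₀)
    (hc : chartPred 𝒞 𝒟 T i κ L₀) :
    ∃ a : R, φ₀ a ≠ 0 ∧ ∀ (R' : Type u) [CommRing R'] [Algebra k R'] (φ : R →ₐ[k] R')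
      (M' : GluedModule (𝒞.chart R')), IsUnit (φ a) → IsBC (𝒞.chartHom φ) M M' →
        InChart 𝒞 (𝒟.Q i.2) R' M' := by
  obtain ⟨hL₀lb, M₁, hM₁, htw₁, hin₁⟩ := hc
  obtain ⟨M₀, hM₀⟩ := exists_isBC 𝒞 φ₀ M
  have hM₀lb := isLineBundle_of_isBC 𝒞 φ₀ M M₀ hM hM₀
  have htw₀ := T.bc i.1 φ₀ L M L₀ M₀ hL hM htw hL₀ hM₀
  have e := T.unique_up i.1 L₀ M₁ M₀ hL₀lb hM₁ hM₀lb htw₁ htw₀
  exact 𝒟.spread i.2 M hM hMr κ φ₀ M₀ hM₀ (inChart_of_iso hin₁ e)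

/-- Spreading out, `L`-form. -/
theorem spread_L (i : T.Δ × 𝒟.J) {R : Type u} [CommRing R] [Algebra k R]
    (L : GluedModule (𝒞.chart R)) (hL : L.IsLineBundle) (hLr : Rigid 𝒞 L)
    (κ : Type u) [Field κ] [IsAlgClosed κ] [Algebra k κ] (φ₀ : R →ₐ[k] κ)
    (L₀ : GluedModule (𝒞.chart κ)) (hL₀ : IsBC (𝒞.chartHom φ₀) L L₀)
    (hc : chartPred 𝒞 𝒟 T i κ L₀) :
    ∃ a : R, φ₀ a ≠ 0 ∧ ∀ (R' : Type u) [CommRing R'] [Algebra k R'] (φ : R →ₐ[k] R')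
      (L' : GluedModule (𝒞.chart R')), IsUnit (φ a) → IsBC (𝒞.chartHom φ) L L' →
        chartPred 𝒞 𝒟 T i R' L' := by
  obtain ⟨M, hM, htw⟩ := T.exists_up i.1 L hL
  have hMr : Rigid 𝒞 M := (T.rigid_iff i.1 L M hL hM htw).1 hLr
  obtain ⟨a, ha, H⟩ := spread_M i L M hL hM hMr htw κ φ₀ L₀ hL₀ hc
  refine ⟨a, ha, fun R' _ _ φ L' hu hL' => ?_⟩
  obtain ⟨M', hM'⟩ := exists_isBC 𝒞 φ M
  exact ⟨isLineBundle_of_isBC 𝒞 φ L L' hL hL', M', isLineBundle_of_isBC 𝒞 φ M M' hM hM',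
    T.bc i.1 φ L M L' M' hL hM htw hL' hM', H R' φ M' hu hM'⟩

theorem locusSet_open (i : T.Δ × 𝒟.J) {R : Type u} [CommRing R] [Algebra k R]
    (L : GluedModule (𝒞.chart R)) (hL : IsPic0 𝒞 L) : IsOpen (locusSet 𝒞 𝒟 T i R L) := by
  rw [isOpen_iff_forall_mem_open]
  rintro p ⟨κ, _, _, _, φ₀, L₀, hker, hL₀, hc⟩
  obtain ⟨a, ha, H⟩ := spread_L i L hL.lineBundle hL.rigid κ φ₀ L₀ hL₀ hc
  refine ⟨PrimeSpectrum.basicOpen a, ?_, (PrimeSpectrum.basicOpen a).isOpen, ?_⟩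
  · intro q hq
    obtain ⟨κ', _, _, _, φ', hker'⟩ := exists_geomPoint (k := k) q
    obtain ⟨L', hL'⟩ := exists_isBC 𝒞 φ' L
    refine ⟨κ', inferInstance, inferInstance, inferInstance, φ', L', hker', hL', ?_⟩
    refine H κ' φ' L' ?_ hL'
    rw [isUnit_iff_ne_zero]
    intro h0
    have : a ∈ q.asIdeal := by rw [← hker']; exact h0
    exact hq this
  · change a ∉ p.asIdeal
    rw [← hker]
    exact ha

theorem locusSet_spec (i : T.Δ × 𝒟.J) {R R' : Type u} [CommRing R] [Algebra k R] [CommRing R']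
    [Algebra k R'] (φ : R →ₐ[k] R') (L : GluedModule (𝒞.chart R))
    (L' : GluedModule (𝒞.chart R')) (hL : IsPic0 𝒞 L) (hL' : IsBC (𝒞.chartHom φ) L L') :
    chartPred 𝒞 𝒟 T i R' L' ↔
      Set.range (PrimeSpectrum.comap (φ : R →+* R')) ⊆ locusSet 𝒞 𝒟 T i R L := by
  have hker : ∀ (κ : Type u) [Field κ] [Algebra k κ] (φ'' : R' →ₐ[k] κ),
      RingHom.ker ((φ''.comp φ : R →ₐ[k] κ) : R →+* κ) =
        Ideal.comap (φ : R →+* R') (RingHom.ker (φ'' : R' →+* κ)) := by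
    intro κ _ _ φ''
    ext x
    simp [RingHom.mem_ker]
  constructor
  · rintro hc _ ⟨p', rfl⟩
    obtain ⟨κ, _, _, _, φ'', hker''⟩ := exists_geomPoint (k := k) p'
    obtain ⟨L'', hL''⟩ := exists_isBC 𝒞 φ'' L'
    refine ⟨κ, inferInstance, inferInstance, inferInstance, φ''.comp φ, L'', ?_,
      isBC_comp 𝒞 φ φ'' L L' L'' hL' hL'', chartPred_bc i φ'' L' L'' hc hL''⟩
    rw [hker κ φ'', hker'']
    rfl
  · intro hsub
    have hL'pic := isPic0_of_isBC 𝒞 φ L L' hL hL'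
    obtain ⟨M, hM, htw⟩ := T.exists_up i.1 L hL.lineBundle
    have hMr : Rigid 𝒞 M := (T.rigid_iff i.1 L M hL.lineBundle hM htw).1 hL.rigid
    obtain ⟨M', hM'⟩ := exists_isBC 𝒞 φ M
    have hM'lb := isLineBundle_of_isBC 𝒞 φ M M' hM hM'
    have htw' := T.bc i.1 φ L M L' M' hL.lineBundle hM htw hL' hM'
    have hM'r : Rigid 𝒞 M' :=
      (T.rigid_iff i.1 L' M' hL'pic.lineBundle hM'lb htw').1 hL'pic.rigid
    refine ⟨hL'pic.lineBundle, M', hM'lb, htw', ?_⟩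
    refine 𝒟.lg i.2 M' hM'lb hM'r ?_
    intro κ _ _ _ φ'' M'' hM''
    have hp : PrimeSpectrum.comap (φ : R →+* R')
        ⟨RingHom.ker (φ'' : R' →+* κ), RingHom.ker_isPrime _⟩ ∈ locusSet 𝒞 𝒟 T i R L :=
      hsub ⟨_, rfl⟩
    obtain ⟨κ₁, _, _, _, φ₁, L₁, hker₁, hL₁, hc₁⟩ := hp
    obtain ⟨a, ha, H⟩ := spread_M i L M hL.lineBundle hM hMr htw κ₁ φ₁ L₁ hL₁ hc₁
    refine H κ (φ''.comp φ) M'' ?_ (isBC_comp 𝒞 φ φ'' M M' M'' hM' hM'')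
    rw [isUnit_iff_ne_zero]
    intro h0
    apply ha
    have h1 : a ∈ RingHom.ker ((φ''.comp φ : R →ₐ[k] κ) : R →+* κ) := h0
    rw [hker κ φ''] at h1
    have h2 : a ∈ RingHom.ker (φ₁ : R →+* κ₁) := by rw [hker₁]; exact h1
    exact h2

theorem locusSet_cover {R : Type u} [CommRing R] [Algebra k R]
    (L : GluedModule (𝒞.chart R)) (hL : IsPic0 𝒞 L) :
    ⋃ i, locusSet 𝒞 𝒟 T i R L = Set.univ := by
  rw [Set.eq_univ_iff_forall]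
  intro p
  obtain ⟨κ, _, _, _, φ, hker⟩ := exists_geomPoint (k := k) p
  obtain ⟨L', hL'⟩ := exists_isBC 𝒞 φ L
  have hL'pic := isPic0_of_isBC 𝒞 φ L L' hL hL'
  obtain ⟨δ, M, hM, htw, hgood⟩ := T.good κ L' hL'pic
  have hMr : Rigid 𝒞 M := (T.rigid_iff δ L' M hL'pic.lineBundle hM htw).1 hL'pic.rigid
  obtain ⟨j, hj⟩ := 𝒟.good_mem κ M hM hMr hgood
  rw [Set.mem_iUnion]
  exact ⟨(δ, j), κ, inferInstance, inferInstance, inferInstance, φ, L', hker, hL',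
    hL'pic.lineBundle, M, hM, htw, hj⟩

theorem chartPred_univ (i : T.Δ × 𝒟.J) (P : GluedModule (𝒞.chart (𝒟.S i.2)))
    (hP : P.IsLineBundle) (hPtw : T.tw i.1 (𝒟.S i.2) P (𝒟.Q i.2))
    {R : Type u} [CommRing R] [Algebra k R] (L : GluedModule (𝒞.chart R))
    (hc : chartPred 𝒞 𝒟 T i R L) :
    ∃! φ : 𝒟.S i.2 →ₐ[k] R, IsBC (𝒞.chartHom φ) P L := by
  obtain ⟨hL, M, hM, htw, ψ, hψ⟩ := hc
  have hQ := 𝒟.Q_lineBundle i.2
  refine ⟨ψ, ?_, ?_⟩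
  · obtain ⟨L'', hL''⟩ := exists_isBC 𝒞 ψ P
    have hL''lb := isLineBundle_of_isBC 𝒞 ψ P L'' hP hL''
    have htw'' := T.bc i.1 ψ P (𝒟.Q i.2) L'' M hP hQ hPtw hL'' hψ
    have e := T.unique_down i.1 L'' L M hL''lb hL hM htw'' htw
    exact isBC_of_iso 𝒞 ψ P P L'' L hL'' ⟨Iso.refl P⟩ e
  · intro φ hφ
    obtain ⟨M'', hM''⟩ := exists_isBC 𝒞 φ (𝒟.Q i.2)
    have hM''lb := isLineBundle_of_isBC 𝒞 φ (𝒟.Q i.2) M'' hQ hM''
    have htw'' := T.bc i.1 φ P (𝒟.Q i.2) L M'' hP hQ hPtw hφ hM''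
    have e := T.unique_up i.1 L M'' M hL hM''lb hM htw'' htw
    have hφM : IsBC (𝒞.chartHom φ) (𝒟.Q i.2) M :=
      isBC_of_iso 𝒞 φ (𝒟.Q i.2) (𝒟.Q i.2) M'' M hM'' ⟨Iso.refl _⟩ e
    exact 𝒟.inj i.2 φ ψ M hφM hψ

/-- Formal smoothness of the divisor charts, from (LIFT), (LG), (INJ). -/
theorem formallySmooth_S (j : 𝒟.J) : Algebra.FormallySmooth k (𝒟.S j) := by
  refine Algebra.FormallySmooth.of_comp_surjective ?_
  intro B _ _ I hI ψ₀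
  obtain ⟨M₀, hM₀⟩ := exists_isBC 𝒞 ψ₀ (𝒟.Q j)
  have hM₀lb := isLineBundle_of_isBC 𝒞 ψ₀ (𝒟.Q j) M₀ (𝒟.Q_lineBundle j) hM₀
  have hM₀r := rigid_of_isBC 𝒞 ψ₀ (𝒟.Q j) M₀ (𝒟.Q_rigid j) hM₀
  obtain ⟨M, hM, hMr, hMM₀⟩ := exists_lift 𝒞 I hI M₀ hM₀lb hM₀r
  have hin : InChart 𝒞 (𝒟.Q j) B M := by
    refine 𝒟.lg j M hM hMr ?_
    intro κ _ _ _ φ M' hM'
    have hIle : I ≤ RingHom.ker (φ : B →+* κ) := by
      intro x hx
      have hx2 : x * x ∈ I ^ 2 := by rw [pow_two]; exact Ideal.mul_mem_mul hx hx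
      rw [hI] at hx2
      have : φ x * φ x = 0 := by rw [← map_mul]; simpa using congrArg φ hx2
      exact mul_self_eq_zero.mp this
    let φbar : B ⧸ I →ₐ[k] κ := Ideal.Quotient.liftₐ I φ (fun x hx => hIle hx)
    have hfac : φbar.comp (Ideal.Quotient.mkₐ k I) = φ := by
      ext x; simp [φbar]
    obtain ⟨M'', hM''⟩ := exists_isBC 𝒞 φbar M₀
    have h1 : IsBC (𝒞.chartHom (φbar.comp (Ideal.Quotient.mkₐ k I))) M M'' :=
      isBC_comp 𝒞 _ φbar M M₀ M'' hMM₀ hM''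
    rw [hfac] at h1
    have e := isBC_unique 𝒞 φ M M'' M' h1 hM'
    exact inChart_of_iso ⟨φbar.comp ψ₀, isBC_comp 𝒞 ψ₀ φbar (𝒟.Q j) M₀ M'' hM₀ hM''⟩ e
  obtain ⟨ψ, hψ⟩ := hin
  refine ⟨ψ, ?_⟩
  exact 𝒟.inj j _ ψ₀ M₀ (isBC_comp 𝒞 ψ (Ideal.Quotient.mkₐ k I) (𝒟.Q j) M M₀ hψ hMM₀) hM₀

/-- The assembled atlas. -/
theorem chartAtlas_of (𝒞 : CurveData k) (𝒟 : DivAtlas 𝒞) (T : TwistFamily 𝒞) :
    Nonempty (ChartAtlas 𝒞) := by
  classical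
  have hP : ∀ i : T.Δ × 𝒟.J, ∃ L : GluedModule (𝒞.chart (𝒟.S i.2)),
      L.IsLineBundle ∧ T.tw i.1 (𝒟.S i.2) L (𝒟.Q i.2) :=
    fun i => T.exists_down i.1 (𝒟.Q i.2) (𝒟.Q_lineBundle i.2)
  choose P hPlb hPtw using hP
  refine ⟨{
    ι := T.Δ × 𝒟.J
    S := fun i => 𝒟.S i.2
    finiteType := fun i => 𝒟.finiteType i.2
    formallySmooth := fun i => formallySmooth_S i.2
    P := P
    P_pic0 := ?_
    chart := fun i R _ _ L => chartPred 𝒞 𝒟 T i R L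
    chart_P := ?_
    chart_bc := ?_
    univ := ?_
    locus := fun i R _ _ L => locusSet 𝒞 𝒟 T i R L
    locus_open := ?_
    locus_spec := ?_
    locus_cover := ?_ }⟩
  · intro i
    refine ⟨hPlb i, (T.rigid_iff i.1 (P i) (𝒟.Q i.2) (hPlb i) (𝒟.Q_lineBundle i.2) (hPtw i)).2
      (𝒟.Q_rigid i.2), ?_⟩
    intro κ _ _ _ φ N' hN'
    obtain ⟨M', hM'⟩ := exists_isBC 𝒞 φ (𝒟.Q i.2)
    have hN'lb := isLineBundle_of_isBC 𝒞 φ (P i) N' (hPlb i) hN'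
    have hM'lb := isLineBundle_of_isBC 𝒞 φ (𝒟.Q i.2) M' (𝒟.Q_lineBundle i.2) hM'
    have htw := T.bc i.1 φ (P i) (𝒟.Q i.2) N' M' (hPlb i) (𝒟.Q_lineBundle i.2) (hPtw i) hN' hM'
    have h1 := T.chi i.1 κ N' M' hN'lb hM'lb htw
    have h2 := 𝒟.Q_chi i.2 κ φ M' hM'
    omega
  · intro i
    exact ⟨hPlb i, 𝒟.Q i.2, 𝒟.Q_lineBundle i.2, hPtw i, AlgHom.id k _,
      (isBC_id_iff 𝒞 _ _).2 ⟨Iso.refl _⟩⟩
  · intro i R R' _ _ _ _ φ L L' hc hL'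
    exact chartPred_bc i φ L L' hc hL'
  · intro i R _ _ L _ hc
    exact chartPred_univ i (P i) (hPlb i) (hPtw i) L hc
  · intro i R _ _ L hL
    exact locusSet_open i L hL
  · intro i R R' _ _ _ _ φ L L' hL hL'
    exact locusSet_spec i φ L L' hL hL'
  · intro R _ _ L hL
    exact locusSet_cover L hL

end Fermat.Agent.S25.ATLAS
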